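import Fermat.Agent.LandauAlmostPrimes.Weighted

/-!
# Landau's theorem on the numbers with `k` prime factors

With `log (p₁ ⋯ pₖ)` close to `log N` for almost all tuples, the weighted sum gives the number of
tuples, hence the number of `n ≤ N` with `k` prime factors.
-/

set_option autoImplicit false

noncomputable section

namespace FA.LandauAlmostPrimes

open Finset Filter FA.ErdosKac
open scoped Topology

/-- `log log N`. -/
def llog (N : ℕ) : ℝ := Real.log (Real.log N)

theorem tendsto_log_natCast : Tendsto (fun N : ℕ => Real.log N) atTop atTop :=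
  Real.tendsto_log_atTop.comp tendsto_natCast_atTop_atTop

theorem tendsto_llog : Tendsto llog atTop atTop :=
  Real.tendsto_log_atTop.comp tendsto_log_natCast

theorem tendsto_recipSum_div_llog : Tendsto (fun N => recipSum N / llog N) atTop (𝓝 1) := by
  obtain ⟨C, hC⟩ := exists_abs_recipSum_sub_le
  refine tendsto_iff_norm_sub_tendsto_zero.2
    (squeeze_zero_norm' ?_ (tendsto_llog.const_div_atTop C))
  filter_upwards [eventually_ge_atTop 2, tendsto_llog.eventually_gt_atTop 0] with N hN hl
  rw [norm_norm, div_sub_one hl.ne', Real.norm_eq_abs, abs_div, abs_of_pos hl]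
  exact div_le_div_of_nonneg_right (hC N hN) hl.le

theorem tendsto_recipMax_div_llog :
    Tendsto (fun N : ℕ => recipMax N / llog N) atTop (𝓝 1) := by
  refine tendsto_recipSum_div_llog.congr' ?_
  have h : ∀ᶠ N in atTop, 1 ≤ recipSum N := by
    filter_upwards [tendsto_recipSum_div_llog.eventually (eventually_ge_nhds (show (1 / 2 : ℝ) < 1
      by norm_num)), tendsto_llog.eventually_ge_atTop 2] with N h1 h2
    rw [le_div_iff₀ (by linarith)] at h1
    linarith
  filter_upwards [h] with N hN
  rw [recipMax, Nat.floor_natCast, max_eq_right hN]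

theorem tendsto_recipPow_div (k : ℕ) :
    Tendsto (fun N : ℕ => recipPow k N / llog N ^ k) atTop (𝓝 1) := by
  rcases Nat.eq_zero_or_pos k with rfl | hk
  · refine tendsto_const_nhds.congr' ?_
    filter_upwards [eventually_ge_atTop 1] with N hN
    rw [recipPow_zero (Nat.one_le_cast.2 hN), pow_zero, div_one]
  obtain ⟨C, hC⟩ := exists_abs_recipSum_sub_le
  obtain ⟨D, hD⟩ : ∃ D, D = Real.log (2 * k) + C := ⟨_, rfl⟩
  have hk0 : (0 : ℝ) < k := Nat.cast_pos.2 hk
  have hlo : Tendsto (fun N : ℕ => ((llog N - D) / llog N) ^ k) atTop (𝓝 1) := by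
    have h := ((tendsto_const_nhds (x := (1 : ℝ))).sub (tendsto_llog.const_div_atTop D)).pow k
    rw [sub_zero, one_pow] at h
    refine h.congr' ?_
    filter_upwards [tendsto_llog.eventually_gt_atTop 0] with N hl
    rw [sub_div, div_self hl.ne']
  have hhi := (tendsto_recipSum_div_llog.pow k)
  rw [one_pow] at hhi
  refine tendsto_of_tendsto_of_tendsto_of_le_of_le' hlo hhi ?_ ?_
  · filter_upwards [tendsto_llog.eventually_gt_atTop (max D 0),
      tendsto_log_natCast.eventually_ge_atTop (2 * k * Real.log 2 + 2 * k)] with N hl hlogN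
    obtain ⟨M, hM⟩ : ∃ M, M = ⌊(N : ℝ) ^ ((k : ℝ)⁻¹)⌋₊ := ⟨_, rfl⟩
    have hlog0 : 0 < Real.log (N : ℝ) := by
      nlinarith [Real.log_pos one_lt_two]
    have hN0 : (0 : ℝ) < N := Nat.cast_pos.2 <| Nat.pos_of_ne_zero fun h => by
      rw [h] at hlog0; simp at hlog0
    have hroot : 0 ≤ (N : ℝ) ^ ((k : ℝ)⁻¹) := (Real.rpow_pos_of_pos hN0 _).le
    have hMk : M ^ k ≤ ⌊(N : ℝ)⌋₊ := by
      rw [Nat.floor_natCast, ← Nat.cast_le (α := ℝ), Nat.cast_pow]
      refine (pow_le_pow_left₀ (Nat.cast_nonneg M) (hM ▸ Nat.floor_le hroot) k).trans (le_of_eq ?_)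
      rw [← Real.rpow_natCast, ← Real.rpow_mul hN0.le, inv_mul_cancel₀ hk0.ne', Real.rpow_one]
    have hM1 : Real.log N / k ≤ Real.log ((M : ℝ) + 1) := by
      rw [div_eq_inv_mul, ← Real.log_rpow hN0]
      exact Real.log_le_log (Real.rpow_pos_of_pos hN0 _) (hM ▸ (Nat.lt_floor_add_one _).le)
    have hkk : 2 * Real.log 2 + 2 ≤ Real.log N / k := by
      rw [le_div_iff₀ hk0]
      linarith
    have hM2 : 2 ≤ M := by
      by_contra h
      have : Real.log ((M : ℝ) + 1) ≤ Real.log 2 := Real.log_le_log (by positivity) (by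
        have : (M : ℝ) ≤ 1 := Nat.cast_le_one.2 (by omega)
        linarith)
      linarith [Real.log_pos one_lt_two]
    have hMlog : Real.log N / (2 * k) ≤ Real.log M := by
      have h2 : Real.log ((M : ℝ) + 1) ≤ Real.log 2 + Real.log M := by
        rw [← Real.log_mul two_ne_zero (by positivity)]
        exact Real.log_le_log (by positivity) (by
          have : (2 : ℝ) ≤ M := by exact_mod_cast hM2
          linarith)
      rw [show Real.log N / (2 * k) = Real.log N / k / 2 by ring]
      linarith
    have hrec : llog N - D ≤ recipSum M := by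
      have h1 := (abs_le.1 (hC M hM2)).1
      have h2 := Real.log_le_log (by positivity) hMlog
      rw [Real.log_div hlog0.ne' (by positivity)] at h2
      rw [hD, llog]
      linarith
    have hl0 : 0 < llog N := (le_max_right _ _).trans_lt hl
    rw [div_pow]
    refine div_le_div_of_nonneg_right ?_ (pow_nonneg hl0.le k)
    exact (pow_le_pow_left₀ (by linarith [le_max_left D (0 : ℝ)]) hrec k).trans
      (pow_recipSum_le hMk)
  · filter_upwards [tendsto_llog.eventually_gt_atTop 0] with N hl
    rw [div_pow]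
    refine div_le_div_of_nonneg_right ?_ (pow_nonneg hl.le k)
    simpa using recipPow_le k (N : ℝ)

theorem tendsto_logSum_div (j : ℕ) :
    Tendsto (fun N : ℕ => logSum (j + 1) N / (N * llog N ^ j)) atTop (𝓝 ((j : ℝ) + 1)) := by
  have hR : Tendsto (fun N : ℕ => (recipMax N / llog N) ^ j) atTop (𝓝 1) := by
    simpa using tendsto_recipMax_div_llog.pow j
  have hlow : Tendsto (fun N : ℕ => lowerOrder j N / (N * llog N ^ j)) atTop (𝓝 0) := by
    rcases j with _ | i
    · simpa [lowerOrder] using tendsto_inv_atTop_nhds_zero_nat (𝕜 := ℝ)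
    · have h := (tendsto_recipMax_div_llog.pow i).mul (tendsto_inv_atTop_zero.comp tendsto_llog)
      rw [mul_zero] at h
      refine h.congr' ?_
      filter_upwards [eventually_ge_atTop 1, tendsto_llog.eventually_gt_atTop 0] with N hN hl
      have hN0 : (0 : ℝ) < N := Nat.cast_pos.2 hN
      simp only [lowerOrder, Nat.succ_ne_zero, if_false, Nat.add_sub_cancel, Function.comp_apply,
        div_pow, pow_succ]
      field_simp
  have herr : Tendsto (fun N : ℕ => weightErr j N / (N * llog N ^ j)) atTop (𝓝 0) := by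
    refine Metric.tendsto_nhds.2 fun η hη => ?_
    obtain ⟨M, hM, h⟩ := exists_weightErr_le j (η / 4) (by positivity)
    have h0 := hlow.const_mul M
    rw [mul_zero] at h0
    filter_upwards [hR.eventually (eventually_le_nhds one_lt_two),
      h0.eventually (eventually_lt_nhds (half_pos hη)), eventually_ge_atTop 1,
      tendsto_llog.eventually_gt_atTop 0] with N h1 h2 hN hl
    have hN0 : (0 : ℝ) < N := Nat.cast_pos.2 hN
    have hden : 0 < (N : ℝ) * llog N ^ j := mul_pos hN0 (pow_pos hl j)
    rw [Real.dist_eq, sub_zero, abs_div, abs_of_pos hden]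
    calc |weightErr j N| / (N * llog N ^ j)
        ≤ (η / 4 * N * recipMax N ^ j + M * lowerOrder j N) / (N * llog N ^ j) :=
          div_le_div_of_nonneg_right (h N hN0.le) hden.le
      _ = η / 4 * (recipMax N / llog N) ^ j + M * (lowerOrder j N / (N * llog N ^ j)) := by
          rw [div_pow]; field_simp
      _ < η := by
          linarith [mul_le_mul_of_nonneg_left h1 (show 0 ≤ η / 4 by positivity)]
  have h := herr.add ((tendsto_recipPow_div j).const_mul ((j : ℝ) + 1))
  rw [zero_add, mul_one] at h
  refine h.congr' ?_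
  filter_upwards [eventually_ge_atTop 1, tendsto_llog.eventually_gt_atTop 0] with N hN hl
  have hN0 : (0 : ℝ) < N := Nat.cast_pos.2 hN
  rw [weightErr]
  field_simp
  ring

/-- The normalisation `N (log log N) ^ j / log N`. -/
def landauMain (j N : ℕ) : ℝ := (N : ℝ) * llog N ^ j / Real.log N

theorem eventually_landauMain_nonneg (j : ℕ) : ∀ᶠ N in atTop, 0 ≤ landauMain j N := by
  filter_upwards [tendsto_llog.eventually_gt_atTop 0] with N hl
  exact div_nonneg (mul_nonneg (Nat.cast_nonneg N) (pow_nonneg hl.le j))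
    (Real.log_natCast_nonneg N)

theorem tendsto_card_primeTuples (j : ℕ) :
    Tendsto (fun N => ((primeTuples (j + 1) N).card : ℝ) / landauMain j N) atTop
      (𝓝 ((j : ℝ) + 1)) := by
  have hj : (0 : ℝ) < (j : ℝ) + 1 := by positivity
  have hs := tendsto_logSum_div j
  refine tendsto_order.2 ⟨fun b hb => ?_, fun b hb => ?_⟩
  · filter_upwards [hs.eventually (eventually_gt_nhds hb), eventually_ge_atTop 2,
      tendsto_llog.eventually_gt_atTop 0] with N h1 hN hl
    have hN0 : (0 : ℝ) < N := Nat.cast_pos.2 (by omega)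
    have hlog : 0 < Real.log N := Real.log_pos (Nat.one_lt_cast.2 (by omega))
    have hden : 0 < (N : ℝ) * llog N ^ j := mul_pos hN0 (pow_pos hl j)
    refine h1.trans_le ?_
    rw [landauMain, div_div_eq_mul_div]
    exact div_le_div_of_nonneg_right (logSum_le_card_mul_log _ _) hden.le
  · obtain ⟨δ, hδ⟩ : ∃ δ, δ = (b - ((j : ℝ) + 1)) / (2 * b) := ⟨_, rfl⟩
    have hb0 : 0 < b := hj.trans hb
    have hδ0 : 0 < δ := hδ ▸ div_pos (sub_pos.2 hb) (by positivity)
    have hδ1 : δ < 1 := by rw [hδ, div_lt_one (by positivity)]; linarith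
    have hδb : (j : ℝ) + 1 < (1 - δ) * b := by
      have : δ * b = (b - ((j : ℝ) + 1)) / 2 := by rw [hδ]; field_simp
      nlinarith
    have hsmall : Tendsto (fun N : ℕ => 2 ^ (j + 1) / δ ^ 2 *
        ((δ * Real.log N) ^ 2 * Real.exp (-(δ * Real.log N)))) atTop (𝓝 0) := by
      simpa using ((Real.tendsto_pow_mul_exp_neg_atTop_nhds_zero 2).comp
        (tendsto_log_natCast.const_mul_atTop hδ0)).const_mul (2 ^ (j + 1) / δ ^ 2)
    filter_upwards [hs.eventually (eventually_lt_nhds (show (j : ℝ) + 1 <
        ((j : ℝ) + 1 + (1 - δ) * b) / 2 by linarith)),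
      hsmall.eventually (eventually_lt_nhds (show (0 : ℝ) <
        (((1 - δ) * b) - ((j : ℝ) + 1)) / 2 by linarith)),
      tendsto_recipMax_div_llog.eventually (eventually_le_nhds one_lt_two),
      tendsto_llog.eventually_gt_atTop 0, eventually_ge_atTop 2] with N h1 h2 h3 hl hN
    have hN0 : (0 : ℝ) < N := Nat.cast_pos.2 (by omega)
    have hlog : 0 < Real.log N := Real.log_pos (Nat.one_lt_cast.2 (by omega))
    obtain ⟨y, hy⟩ : ∃ y, y = (N : ℝ) * Real.exp (-(δ * Real.log N)) := ⟨_, rfl⟩
    have hy0 : 0 < y := hy ▸ mul_pos hN0 (Real.exp_pos _)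
    have hylog : Real.log y = (1 - δ) * Real.log N := by
      rw [hy, Real.log_mul hN0.ne' (Real.exp_pos _).ne', Real.log_exp]; ring
    have hyN : ⌊y⌋₊ ≤ N := by
      refine Nat.floor_le_of_le ?_
      rw [hy]
      exact mul_le_of_le_one_right hN0.le (Real.exp_le_one_iff.2 (by nlinarith))
    -- all tuples are small or heavy
    have hsplit : ((primeTuples (j + 1) N).card : ℝ) * ((1 - δ) * Real.log N) ≤
        logSum (j + 1) N + ((primeTuples (j + 1) ⌊y⌋₊).card : ℝ) * ((1 - δ) * Real.log N) := by
      have hsub : primeTuples (j + 1) ⌊y⌋₊ ⊆ primeTuples (j + 1) N := primeTuples_mono hyN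
      have hc : ((primeTuples (j + 1) N \ primeTuples (j + 1) ⌊y⌋₊).card : ℝ) =
          (primeTuples (j + 1) N).card - ((primeTuples (j + 1) ⌊y⌋₊).card : ℝ) := by
        rw [card_sdiff_of_subset hsub, Nat.cast_sub (card_le_card hsub)]
      have hheavy : ((primeTuples (j + 1) N \ primeTuples (j + 1) ⌊y⌋₊).card : ℝ) *
          ((1 - δ) * Real.log N) ≤ logSum (j + 1) N := by
        rw [← nsmul_eq_mul, logSum, Nat.floor_natCast]
        refine (card_nsmul_le_sum _ (fun t : Fin (j + 1) → ℕ => ∑ i, Real.log (t i)) _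
          fun t ht => ?_).trans
          (sum_le_sum_of_subset_of_nonneg sdiff_subset fun t _ _ =>
            sum_nonneg fun i _ => Real.log_natCast_nonneg _)
        obtain ⟨ht1, ht2⟩ := mem_sdiff.1 ht
        have hp := (mem_primeTuples.1 ht1).1
        have hgt : y < ((∏ i, t i : ℕ) : ℝ) := by
          by_contra hle
          exact ht2 (mem_primeTuples.2 ⟨hp, Nat.le_floor (not_lt.1 hle)⟩)
        rw [← Real.log_prod fun i _ => Nat.cast_ne_zero.2 (hp i).ne_zero, ← Nat.cast_prod, ← hylog]
        exact Real.log_le_log hy0 hgt.le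
      rw [hc, sub_mul] at hheavy
      linarith
    have hfew : ((primeTuples (j + 1) ⌊y⌋₊).card : ℝ) ≤
        y * ((2 * llog N) ^ (j + 1)) := by
      refine (card_primeTuples_le _ hy0.le).trans (mul_le_mul_of_nonneg_left
        (pow_le_pow_left₀ (recipSum_nonneg _) ?_ _) hy0.le)
      rw [div_le_iff₀ hl] at h3
      refine le_trans ?_ h3
      refine le_trans ?_ (recipSum_le_recipMax (N : ℝ))
      rw [Nat.floor_natCast]
      exact sum_le_sum_of_subset_of_nonneg (fun q hq => by
        rw [mem_primesUpTo] at hq ⊢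
        exact ⟨hq.1, hq.2.trans hyN⟩) fun q _ _ => by positivity
    have hden : 0 < (N : ℝ) * llog N ^ j := mul_pos hN0 (pow_pos hl j)
    have hll : llog N ≤ Real.log N := Real.log_le_self hlog.le
    have hfew2 : ((primeTuples (j + 1) ⌊y⌋₊).card : ℝ) * Real.log N ≤
        2 ^ (j + 1) / δ ^ 2 * ((δ * Real.log N) ^ 2 * Real.exp (-(δ * Real.log N))) *
          ((N : ℝ) * llog N ^ j) := by
      refine (mul_le_mul_of_nonneg_right hfew hlog.le).trans ?_
      rw [hy, show 2 ^ (j + 1) / δ ^ 2 * ((δ * Real.log N) ^ 2 * Real.exp (-(δ * Real.log N))) *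
        ((N : ℝ) * llog N ^ j) = (N : ℝ) * Real.exp (-(δ * Real.log N)) *
          (2 ^ (j + 1) * llog N ^ j * Real.log N) * Real.log N by field_simp]
      rw [mul_pow, pow_succ (llog N)]
      refine mul_le_mul_of_nonneg_right ?_ hlog.le
      refine mul_le_mul_of_nonneg_left ?_ (mul_nonneg hN0.le (Real.exp_pos _).le)
      rw [← mul_assoc]
      exact mul_le_mul_of_nonneg_left hll (by positivity)
    rw [landauMain, div_div_eq_mul_div, div_lt_iff₀ hden]
    rw [div_lt_iff₀ hden] at h1
    refine lt_of_mul_lt_mul_left ?_ (sub_nonneg.2 hδ1.le)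
    have h5 : (1 - δ) * (((primeTuples (j + 1) ⌊y⌋₊).card : ℝ) * Real.log N) ≤
        ((primeTuples (j + 1) ⌊y⌋₊).card : ℝ) * Real.log N :=
      mul_le_of_le_one_left (by positivity) (by linarith)
    nlinarith [mul_lt_mul_of_pos_right h2 hden]

theorem tendsto_card_primeTuples_prev (j : ℕ) :
    Tendsto (fun N => ((primeTuples j N).card : ℝ) / landauMain j N) atTop (𝓝 0) := by
  rcases j with _ | i
  · have h : Tendsto (fun N : ℕ => Real.log N / N) atTop (𝓝 0) :=
      (Real.isLittleO_log_id_atTop.tendsto_div_nhds_zero).comp tendsto_natCast_atTop_atTop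
    refine squeeze_zero' ?_ ?_ h
    · filter_upwards [eventually_ge_atTop 1] with N hN
      have := Real.log_natCast_nonneg N
      simp only [landauMain, pow_zero, mul_one]
      positivity
    · filter_upwards [eventually_ge_atTop 2] with N hN
      have hlog : 0 < Real.log N := Real.log_pos (Nat.one_lt_cast.2 (by omega))
      simp only [landauMain, pow_zero, mul_one, div_div_eq_mul_div]
      refine div_le_div_of_nonneg_right (mul_le_of_le_one_left hlog.le ?_) (Nat.cast_nonneg N)
      exact Nat.cast_le_one.2 ((card_le_univ _).trans (by simp))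
  · have h := (tendsto_card_primeTuples i).mul (tendsto_inv_atTop_zero.comp tendsto_llog)
    rw [mul_zero] at h
    refine h.congr' ?_
    filter_upwards [tendsto_llog.eventually_gt_atTop 0] with N hl
    simp only [Function.comp_apply, landauMain, pow_succ]
    field_simp

/-- **Landau's theorem, squarefree numbers.** -/
theorem tendsto_card_sqfreeAlmostPrimes (j : ℕ) :
    Tendsto (fun N => ((sqfreeAlmostPrimes (j + 1) N).card : ℝ) / landauMain j N) atTop
      (𝓝 (1 / (j.factorial : ℝ))) := by
  have hinj : Tendsto (fun N => ((injTuples (j + 1) N).card : ℝ) / landauMain j N) atTop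
      (𝓝 ((j : ℝ) + 1)) := by
    have h0 := (tendsto_card_primeTuples j).sub
      ((tendsto_card_primeTuples_prev j).const_mul (((j : ℝ) + 1) ^ 2))
    rw [mul_zero, sub_zero] at h0
    refine tendsto_of_tendsto_of_tendsto_of_le_of_le' h0 (tendsto_card_primeTuples j) ?_ ?_
    all_goals filter_upwards [eventually_landauMain_nonneg j] with N hmain
    · have h1 : ((primeTuples (j + 1) N).card : ℝ) ≤ (injTuples (j + 1) N).card +
          ((j : ℝ) + 1) ^ 2 * (primeTuples j N).card := by
        exact_mod_cast card_primeTuples_sub_le j N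
      rw [← mul_div_assoc, ← sub_div]
      exact div_le_div_of_nonneg_right (by linarith) hmain
    · exact div_le_div_of_nonneg_right
        (Nat.cast_le.2 (card_le_card (filter_subset _ _))) hmain
  have h := hinj.div_const (((j + 1).factorial : ℝ))
  rw [Nat.factorial_succ] at h
  push_cast at h
  rw [div_mul_cancel_left₀ (by positivity : (j : ℝ) + 1 ≠ 0), ← one_div] at h
  refine h.congr fun N => ?_
  rw [card_injTuples, Nat.factorial_succ]
  push_cast
  field_simp

/-- **Landau's theorem.** -/
theorem tendsto_card_almostPrimes (j : ℕ) :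
    Tendsto (fun N => ((almostPrimes (j + 1) N).card : ℝ) / landauMain j N) atTop
      (𝓝 (1 / (j.factorial : ℝ))) := by
  have h1 := (tendsto_card_sqfreeAlmostPrimes j).add
    ((tendsto_card_primeTuples_prev j).const_mul (((j : ℝ) + 1) ^ 2))
  rw [mul_zero, add_zero] at h1
  refine tendsto_of_tendsto_of_tendsto_of_le_of_le' (tendsto_card_sqfreeAlmostPrimes j) h1 ?_ ?_
  all_goals filter_upwards [eventually_landauMain_nonneg j] with N hmain
  · exact div_le_div_of_nonneg_right (Nat.cast_le.2 (card_le_card (filter_subset _ _))) hmain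
  · rw [← mul_div_assoc, ← add_div]
    refine div_le_div_of_nonneg_right ?_ hmain
    exact_mod_cast card_almostPrimes_le j N

end FA.LandauAlmostPrimes
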