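import Fermat.Agent.ErdosKac.Mertens
import Mathlib.Data.Fintype.BigOperators
import Mathlib.Data.Fintype.CardEmbedding
import Mathlib.NumberTheory.ArithmeticFunction.Misc
import Mathlib.Data.Fin.Tuple.Basic

/-!
# Ordered tuples of primes with product at most `N`

Peeling off the first entry and permuting the entries give, for
`S k = ∑ log (p₁ ⋯ pₖ)`, the recursion `k S (k + 1) N = (k + 1) ∑_p S k (N / p)`.
-/

set_option autoImplicit false

noncomputable section

namespace FA.LandauAlmostPrimes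

open Finset FA.ErdosKac

/-- The ordered `k`-tuples of primes with product at most `N`. -/
def primeTuples (k N : ℕ) : Finset (Fin k → ℕ) :=
  (Fintype.piFinset fun _ => primesUpTo N).filter fun t => ∏ i, t i ≤ N

theorem mem_primeTuples {k N : ℕ} {t : Fin k → ℕ} :
    t ∈ primeTuples k N ↔ (∀ i, (t i).Prime) ∧ ∏ i, t i ≤ N := by
  simp only [primeTuples, mem_filter, Fintype.mem_piFinset, mem_primesUpTo]
  refine ⟨fun h => ⟨fun i => (h.1 i).1, h.2⟩, fun h => ⟨fun i => ⟨h.1 i, ?_⟩, h.2⟩⟩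
  refine le_trans (Nat.le_of_dvd (prod_pos fun j _ => (h.1 j).pos) ?_) h.2
  exact dvd_prod_of_mem t (mem_univ i)

theorem prod_pos_of_mem {k N : ℕ} {t : Fin k → ℕ} (ht : t ∈ primeTuples k N) :
    (0 : ℝ) < ((∏ i, t i : ℕ) : ℝ) :=
  Nat.cast_pos.2 (prod_pos fun i _ => ((mem_primeTuples.1 ht).1 i).pos)

theorem primeTuples_mono {k M N : ℕ} (h : M ≤ N) : primeTuples k M ⊆ primeTuples k N :=
  fun t ht => by
  rw [mem_primeTuples] at ht ⊢
  exact ⟨ht.1, ht.2.trans h⟩

/-- Peeling off the first entry. -/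
theorem sum_primeTuples_succ {β : Type*} [AddCommMonoid β] (k N : ℕ)
    (F : (Fin (k + 1) → ℕ) → β) :
    ∑ t ∈ primeTuples (k + 1) N, F t =
      ∑ p ∈ primesUpTo N, ∑ t ∈ primeTuples k (N / p), F (Fin.cons p t) := by
  rw [sum_sigma']
  refine sum_nbij' (fun t => ⟨t 0, Fin.tail t⟩) (fun x => Fin.cons x.1 x.2) ?_ ?_ ?_ ?_ ?_
  · intro t ht
    obtain ⟨hp, hle⟩ := mem_primeTuples.1 ht
    rw [Fin.prod_univ_succ] at hle
    refine mem_sigma.2 ⟨mem_primesUpTo.2 ⟨hp 0, ?_⟩,
      mem_primeTuples.2 ⟨fun i => hp i.succ, ?_⟩⟩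
    · exact (Nat.le_mul_of_pos_right _ (prod_pos fun i _ => (hp _).pos)).trans hle
    · rw [Nat.le_div_iff_mul_le (hp 0).pos, mul_comm]
      exact hle
  · rintro ⟨p, t⟩ hx
    obtain ⟨hp, ht⟩ := mem_sigma.1 hx
    obtain ⟨hprime, -⟩ := mem_primesUpTo.1 hp
    obtain ⟨htp, hle⟩ := mem_primeTuples.1 ht
    refine mem_primeTuples.2 ⟨Fin.cases (by simpa using hprime) fun i => by simpa using htp i, ?_⟩
    rw [Fin.prod_univ_succ]
    simp only [Fin.cons_zero, Fin.cons_succ]
    rw [mul_comm, ← Nat.le_div_iff_mul_le hprime.pos]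
    exact hle
  · intro t _
    exact Fin.cons_self_tail t
  · rintro ⟨p, t⟩ _
    simp
  · intro t _
    simp [Fin.cons_self_tail]

theorem sum_apply_eq {k N : ℕ} (f : ℕ → ℝ) (i : Fin (k + 1)) :
    ∑ t ∈ primeTuples (k + 1) N, f (t i) = ∑ t ∈ primeTuples (k + 1) N, f (t 0) := by
  have hmem : ∀ t : Fin (k + 1) → ℕ, t ∈ primeTuples (k + 1) N →
      t ∘ Equiv.swap i 0 ∈ primeTuples (k + 1) N := fun t ht => by
    obtain ⟨hp, hle⟩ := mem_primeTuples.1 ht
    refine mem_primeTuples.2 ⟨fun j => hp _, le_of_eq_of_le ?_ hle⟩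
    exact Equiv.prod_comp (Equiv.swap i 0) t
  refine sum_nbij' (fun t => t ∘ Equiv.swap i 0) (fun t => t ∘ Equiv.swap i 0) hmem hmem ?_ ?_ ?_
  · intro t _; funext j; simp
  · intro t _; funext j; simp
  · intro t _; simp

/-- `∑ log (p₁ ⋯ pₖ)`. -/
def logSum (k : ℕ) (x : ℝ) : ℝ :=
  ∑ t ∈ primeTuples k ⌊x⌋₊, ∑ i, Real.log (t i)

/-- `∑ 1 / (p₁ ⋯ pₖ)`. -/
def recipPow (k : ℕ) (x : ℝ) : ℝ :=
  ∑ t ∈ primeTuples k ⌊x⌋₊, ∏ i, ((t i : ℝ))⁻¹

theorem recipPow_succ (k : ℕ) (x : ℝ) :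
    recipPow (k + 1) x = ∑ p ∈ primesUpTo ⌊x⌋₊, (p : ℝ)⁻¹ * recipPow k (x / p) := by
  rw [recipPow, sum_primeTuples_succ]
  refine sum_congr rfl fun p _ => ?_
  rw [recipPow, Nat.floor_div_natCast, mul_sum]
  refine sum_congr rfl fun t _ => ?_
  rw [Fin.prod_univ_succ]
  simp

/-- **The recursion.** -/
theorem natCast_mul_logSum_succ (k : ℕ) (x : ℝ) :
    (k : ℝ) * logSum (k + 1) x = ((k : ℝ) + 1) * ∑ p ∈ primesUpTo ⌊x⌋₊, logSum k (x / p) := by
  obtain ⟨B, hB⟩ : ∃ B, B = ∑ t ∈ primeTuples (k + 1) ⌊x⌋₊, Real.log (t 0) := ⟨_, rfl⟩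
  have h1 : logSum (k + 1) x = ((k : ℝ) + 1) * B := by
    rw [logSum, sum_comm, sum_congr rfl fun i _ => sum_apply_eq (fun n : ℕ => Real.log n) i,
      sum_const, card_univ, Fintype.card_fin, nsmul_eq_mul, hB]
    push_cast
    rfl
  have h2 : ∑ p ∈ primesUpTo ⌊x⌋₊, logSum k (x / p) = (k : ℝ) * B := by
    have e : ∑ p ∈ primesUpTo ⌊x⌋₊, logSum k (x / p) = logSum (k + 1) x - B := by
      rw [logSum, hB, ← sum_sub_distrib, sum_primeTuples_succ]
      refine sum_congr rfl fun p _ => ?_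
      rw [logSum, Nat.floor_div_natCast]
      refine sum_congr rfl fun t _ => ?_
      simp [Fin.sum_univ_succ]
    rw [e, h1]
    ring
  rw [h1, h2]
  ring

theorem logSum_one (x : ℝ) : logSum 1 x = ∑ p ∈ primesUpTo ⌊x⌋₊, Real.log p := by
  rw [logSum, sum_primeTuples_succ]
  refine sum_congr rfl fun p hp => ?_
  rw [mem_primesUpTo] at hp
  have e : primeTuples 0 (⌊x⌋₊ / p) = univ := by
    refine eq_univ_of_forall fun t => mem_primeTuples.2 ⟨fun i => i.elim0, ?_⟩
    rw [Fin.prod_univ_zero]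
    exact Nat.div_pos hp.2 hp.1.pos
  rw [e, Fintype.sum_unique]
  simp

theorem recipPow_zero {x : ℝ} (hx : 1 ≤ x) : recipPow 0 x = 1 := by
  have h1 : 1 ≤ ⌊x⌋₊ := Nat.le_floor (by simpa using hx)
  have e : primeTuples 0 ⌊x⌋₊ = univ :=
    eq_univ_of_forall fun t => mem_primeTuples.2 ⟨fun i => i.elim0, by
      simpa [Fin.prod_univ_zero] using h1⟩
  rw [recipPow, e, Fintype.sum_unique]
  simp

theorem recipPow_le (k : ℕ) (x : ℝ) : recipPow k x ≤ recipSum ⌊x⌋₊ ^ k := by
  rw [recipSum, sum_pow', recipPow, primeTuples]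
  exact sum_le_sum_of_subset_of_nonneg (filter_subset _ _)
    fun t _ _ => prod_nonneg fun i _ => by positivity

theorem pow_recipSum_le {k M : ℕ} {x : ℝ} (h : M ^ k ≤ ⌊x⌋₊) :
    recipSum M ^ k ≤ recipPow k x := by
  rw [recipSum, sum_pow', recipPow]
  refine sum_le_sum_of_subset_of_nonneg (fun t ht => ?_)
    fun t _ _ => prod_nonneg fun i _ => by positivity
  rw [Fintype.mem_piFinset] at ht
  simp only [mem_primesUpTo] at ht
  refine mem_primeTuples.2 ⟨fun i => (ht i).1, le_trans ?_ h⟩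
  exact (prod_le_prod' fun i _ => (ht i).2).trans_eq (by simp)

theorem logSum_le_card_mul_log (k N : ℕ) :
    logSum k N ≤ ((primeTuples k N).card : ℝ) * Real.log N := by
  rw [logSum, Nat.floor_natCast, ← nsmul_eq_mul]
  refine sum_le_card_nsmul _ _ _ fun t ht => ?_
  rw [← Real.log_prod fun i _ => Nat.cast_ne_zero.2 ((mem_primeTuples.1 ht).1 i).ne_zero,
    ← Nat.cast_prod]
  exact Real.log_le_log (prod_pos_of_mem ht) (Nat.cast_le.2 (mem_primeTuples.1 ht).2)

/-- Few tuples have a small product. -/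
theorem card_primeTuples_le (k : ℕ) {y : ℝ} (hy : 0 ≤ y) :
    ((primeTuples k ⌊y⌋₊).card : ℝ) ≤ y * recipSum ⌊y⌋₊ ^ k := by
  refine le_trans ?_ (mul_le_mul_of_nonneg_left (recipPow_le k y) hy)
  rw [recipPow, mul_sum, ← nsmul_one, ← sum_const]
  refine sum_le_sum fun t ht => ?_
  rw [prod_inv_distrib, ← div_eq_mul_inv, ← Nat.cast_prod, one_le_div (prod_pos_of_mem ht)]
  exact (Nat.cast_le.2 (mem_primeTuples.1 ht).2).trans (Nat.floor_le hy)

/-- The numbers `n ≤ N` with `Ω n = k`. -/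
def almostPrimes (k N : ℕ) : Finset ℕ :=
  (Icc 1 N).filter fun n => ArithmeticFunction.cardFactors n = k

/-- The squarefree numbers `n ≤ N` with `k` prime factors. -/
def sqfreeAlmostPrimes (k N : ℕ) : Finset ℕ :=
  (almostPrimes k N).filter Squarefree

/-- The tuples with distinct entries. -/
def injTuples (k N : ℕ) : Finset (Fin k → ℕ) :=
  (primeTuples k N).filter Function.Injective

theorem cardFactors_prod_prime {k : ℕ} (t : Fin k → ℕ) (hp : ∀ i, (t i).Prime) :
    ArithmeticFunction.cardFactors (∏ i, t i) = k := by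
  induction k with
  | zero => simp
  | succ k ih =>
    rw [Fin.prod_univ_succ, ArithmeticFunction.cardFactors_mul (hp 0).ne_zero
      (prod_ne_zero_iff.2 fun i _ => (hp _).ne_zero),
      ArithmeticFunction.cardFactors_apply_prime (hp 0), ih _ fun i => hp i.succ]
    omega

theorem card_injTuples (k N : ℕ) :
    (injTuples k N).card = k.factorial * (sqfreeAlmostPrimes k N).card := by
  have hmaps : ∀ t ∈ injTuples k N, ∏ i, t i ∈ sqfreeAlmostPrimes k N := by
    intro t ht
    obtain ⟨ht, hinj⟩ := mem_filter.1 ht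
    obtain ⟨hp, hle⟩ := mem_primeTuples.1 ht
    refine mem_filter.2 ⟨mem_filter.2 ⟨mem_Icc.2 ⟨prod_pos fun i _ => (hp i).pos, hle⟩,
      cardFactors_prod_prime t hp⟩, ?_⟩
    exact Nat.squarefree_iff_prime_squarefree.2 fun q hq hdvd => by
      obtain ⟨i, -, hi⟩ := (Prime.dvd_finsetProd_iff hq.prime _).1 ((dvd_mul_right q q).trans hdvd)
      have hqi : q = t i := (Nat.prime_dvd_prime_iff_eq hq (hp i)).1 hi
      rw [← mul_prod_erase univ t (mem_univ i), ← hqi, Nat.mul_dvd_mul_iff_left hq.pos] at hdvd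
      obtain ⟨j, hj, hj'⟩ := (Prime.dvd_finsetProd_iff hq.prime _).1 hdvd
      exact (mem_erase.1 hj).1
        (hinj (((Nat.prime_dvd_prime_iff_eq hq (hp j)).1 hj').symm.trans hqi))
  rw [card_eq_sum_card_fiberwise hmaps, mul_comm, ← smul_eq_mul, ← sum_const]
  refine sum_congr rfl fun n hn => ?_
  obtain ⟨hn', hsq⟩ := mem_filter.1 hn
  obtain ⟨hn1, hΩ⟩ := mem_filter.1 hn'
  have hn0 : n ≠ 0 := by rw [mem_Icc] at hn1; omega
  have hcard : n.primeFactors.card = k := by
    rw [← hΩ, ← (ArithmeticFunction.cardDistinctFactors_eq_cardFactors_iff_squarefree hn0).2 hsq,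
      ArithmeticFunction.cardDistinctFactors_apply, ← List.card_toFinset]
    rfl
  have himg : ∀ t : Fin k → ℕ, (∀ i, t i ∈ n.primeFactors) → Function.Injective t →
      ∏ i, t i = n := fun t ht hinj => by
    have e : univ.image t = n.primeFactors := by
      refine eq_of_subset_of_card_le (fun q hq => ?_) ?_
      · obtain ⟨i, -, rfl⟩ := mem_image.1 hq
        exact ht i
      · rw [card_image_of_injective _ hinj, hcard, card_univ, Fintype.card_fin]
    conv_rhs => rw [← Nat.prod_primeFactors_of_squarefree hsq, ← e,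
      prod_image fun i _ j _ h => hinj h]
  rw [← Nat.descFactorial_self k]
  calc _ = (univ : Finset (Fin k ↪ n.primeFactors)).card := by
        refine card_bij' (fun t ht => ⟨fun i => ⟨t i, ?_⟩, fun a b hab => ?_⟩)
          (fun f _ i => (f i : ℕ)) (fun t ht => mem_univ _) (fun f _ => ?_)
          (fun t ht => rfl) (fun f _ => rfl)
        · obtain ⟨ht1, ht2⟩ := mem_filter.1 ht
          obtain ⟨ht3, -⟩ := mem_filter.1 ht1
          exact Nat.mem_primeFactors.2 ⟨(mem_primeTuples.1 ht3).1 i,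
            ht2 ▸ dvd_prod_of_mem t (mem_univ i), hn0⟩
        · exact (mem_filter.1 (mem_filter.1 ht).1).2 (congrArg Subtype.val hab)
        · have hp := fun i => (f i).2
          have hinj : Function.Injective fun i => (f i : ℕ) :=
            Subtype.val_injective.comp f.injective
          have e := himg _ hp hinj
          exact mem_filter.2 ⟨mem_filter.2 ⟨mem_primeTuples.2
            ⟨fun i => Nat.prime_of_mem_primeFactors (hp i), e.trans_le (mem_Icc.1 hn1).2⟩, hinj⟩, e⟩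
    _ = k.descFactorial k := by
        rw [card_univ, Fintype.card_embedding_eq, Fintype.card_fin, Fintype.card_coe, hcard]

/-- The tuples with a repetition. -/
theorem card_primeTuples_sub_le (k N : ℕ) :
    (primeTuples (k + 1) N).card ≤
      (injTuples (k + 1) N).card + (k + 1) ^ 2 * (primeTuples k N).card := by
  rw [injTuples, ← card_filter_add_card_filter_not (s := primeTuples (k + 1) N)
    Function.Injective]
  refine Nat.add_le_add_left ?_ _
  obtain ⟨s, hs⟩ : ∃ s : Fin (k + 1) × Fin (k + 1) → Finset (Fin (k + 1) → ℕ), s = fun ij =>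
      (primeTuples (k + 1) N).filter fun t => ij.1 ≠ ij.2 ∧ t ij.1 = t ij.2 := ⟨_, rfl⟩
  refine le_trans (card_le_card (t := univ.biUnion s) fun t ht => ?_) ?_
  · obtain ⟨ht, hni⟩ := mem_filter.1 ht
    simp only [Function.Injective, not_forall] at hni
    obtain ⟨i, j, hij, hne⟩ := hni
    rw [hs]
    exact mem_biUnion.2 ⟨(i, j), mem_univ _, mem_filter.2 ⟨ht, hne, hij⟩⟩
  refine card_biUnion_le.trans ((sum_le_card_nsmul _ _ _ fun ij _ => ?_).trans (le_of_eq (by
    rw [smul_eq_mul, card_univ, Fintype.card_prod, Fintype.card_fin, sq])))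
  rw [hs]
  refine card_le_card_of_injOn (fun t => Fin.removeNth ij.1 t) (fun t ht => ?_) ?_
  · rw [mem_coe, mem_filter] at ht
    obtain ⟨ht, -⟩ := ht
    obtain ⟨hp, hle⟩ := mem_primeTuples.1 ht
    refine mem_primeTuples.2 ⟨fun i => hp _, le_trans ?_ hle⟩
    rw [Fin.prod_univ_succAbove t ij.1]
    exact Nat.le_mul_of_pos_left _ (hp _).pos
  · intro t ht t' ht' h
    rw [mem_coe, mem_filter] at ht ht'
    obtain ⟨-, hne, he⟩ := ht
    obtain ⟨-, -, he'⟩ := ht'
    obtain ⟨j, hj⟩ := Fin.exists_succAbove_eq hne.symm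
    have h1 : t ij.2 = t' ij.2 := hj ▸ congrFun h j
    rw [← Fin.insertNth_self_removeNth ij.1 t, ← Fin.insertNth_self_removeNth ij.1 t', he, he',
      h1, show Fin.removeNth ij.1 t = Fin.removeNth ij.1 t' from h]

theorem card_almostPrimes_le (k N : ℕ) :
    (almostPrimes (k + 1) N).card ≤
      (sqfreeAlmostPrimes (k + 1) N).card + (k + 1) ^ 2 * (primeTuples k N).card := by
  rw [sqfreeAlmostPrimes, ← card_filter_add_card_filter_not (s := almostPrimes (k + 1) N)
    Squarefree]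
  refine Nat.add_le_add_left ?_ _
  refine le_trans ?_ (Nat.le_of_add_le_add_left (a := (injTuples (k + 1) N).card)
    (b := ((primeTuples (k + 1) N).filter fun t => ¬ Function.Injective t).card)
    ((le_of_eq (by rw [injTuples, card_filter_add_card_filter_not])).trans
      (card_primeTuples_sub_le k N)))
  refine le_trans (card_le_card fun n hn => ?_) (card_image_le (f := fun t => ∏ i, t i))
  obtain ⟨hn', hns⟩ := mem_filter.1 hn
  obtain ⟨hn1, hΩ⟩ := mem_filter.1 hn'
  rw [mem_Icc] at hn1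
  rw [ArithmeticFunction.cardFactors_apply] at hΩ
  obtain ⟨l, hl⟩ : ∃ l, l = n.primeFactorsList := ⟨_, rfl⟩
  rw [← hl] at hΩ
  have hprod : ∏ i : Fin (k + 1), l.get (i.cast hΩ.symm) = n := by
    conv_rhs => rw [← Nat.prod_primeFactorsList (show n ≠ 0 by omega), ← hl, ← List.ofFn_get l,
      List.prod_ofFn]
    exact Fintype.prod_equiv (finCongr hΩ.symm) _ _ fun i => rfl
  refine mem_image.2 ⟨fun i => l.get (i.cast hΩ.symm), mem_filter.2 ⟨mem_primeTuples.2
    ⟨fun i => Nat.prime_of_mem_primeFactorsList (n := n) (by rw [← hl]; exact List.get_mem _ _),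
      hprod.trans_le hn1.2⟩,
    fun hinj => hns ?_⟩, hprod⟩
  rw [Nat.squarefree_iff_nodup_primeFactorsList (by omega), ← hl, List.nodup_iff_injective_get]
  intro a b hab
  have := @hinj (a.cast hΩ) (b.cast hΩ) (by simpa using hab)
  simpa using this

end FA.LandauAlmostPrimes
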