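import Fermat.Agent.LandauAlmostPrimes.Tuples
import Fermat.Agent.Root.SummaryPrimeNumberTheorem

/-!
# The induction from the prime number theorem

`logSum (j + 1) x - (j + 1) x recipPow j x` is `ε x (log log x) ^ j` plus terms of lower order.
-/

set_option autoImplicit false

noncomputable section

namespace FA.LandauAlmostPrimes

open Finset Filter FA.ErdosKac
open scoped Topology

/-- `max 1 ∑_{p ≤ x} 1/p`. -/
def recipMax (x : ℝ) : ℝ := max 1 (recipSum ⌊x⌋₊)

theorem one_le_recipMax (x : ℝ) : 1 ≤ recipMax x := le_max_left _ _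

theorem recipSum_le_recipMax (x : ℝ) : recipSum ⌊x⌋₊ ≤ recipMax x := le_max_right _ _

theorem recipMax_div_le {x : ℝ} {p : ℕ} : recipMax (x / p) ≤ recipMax x := by
  refine max_le_max le_rfl ?_
  rw [Nat.floor_div_natCast]
  exact sum_le_sum_of_subset_of_nonneg (fun q hq => by
    rw [mem_primesUpTo] at hq ⊢
    exact ⟨hq.1, hq.2.trans (Nat.div_le_self _ _)⟩) fun q _ _ => by positivity

/-- The error in the induction. -/
def weightErr (j : ℕ) (x : ℝ) : ℝ :=
  logSum (j + 1) x - ((j : ℝ) + 1) * x * recipPow j x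

/-- The terms of lower order. -/
def lowerOrder (j : ℕ) (x : ℝ) : ℝ := if j = 0 then 1 else x * recipMax x ^ (j - 1)

theorem lowerOrder_nonneg (j : ℕ) {x : ℝ} (hx : 0 ≤ x) : 0 ≤ lowerOrder j x := by
  unfold lowerOrder
  split_ifs
  · exact zero_le_one
  · exact mul_nonneg hx (pow_nonneg (zero_le_one.trans (one_le_recipMax x)) _)

theorem card_primesUpTo_le {x : ℝ} (hx : 0 ≤ x) : ((primesUpTo ⌊x⌋₊).card : ℝ) ≤ x := by
  refine le_trans (Nat.cast_le.2 ?_) (Nat.floor_le hx)
  exact (card_filter_le _ _).trans (by simp)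

theorem sum_div_le {x : ℝ} (hx : 0 ≤ x) :
    ∑ p ∈ primesUpTo ⌊x⌋₊, x / p ≤ x * recipMax x := by
  simp only [div_eq_mul_inv]
  rw [← mul_sum]
  exact mul_le_mul_of_nonneg_left (recipSum_le_recipMax x) hx

theorem sum_lowerOrder_le (j : ℕ) {x : ℝ} (hx : 0 ≤ x) :
    ∑ p ∈ primesUpTo ⌊x⌋₊, lowerOrder j (x / p) ≤ lowerOrder (j + 1) x := by
  rcases j with _ | j
  · simpa [lowerOrder] using card_primesUpTo_le hx
  · simp only [lowerOrder, Nat.succ_ne_zero, if_false, Nat.add_sub_cancel]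
    calc ∑ p ∈ primesUpTo ⌊x⌋₊, x / p * recipMax (x / p) ^ j
        ≤ ∑ p ∈ primesUpTo ⌊x⌋₊, x / p * recipMax x ^ j :=
          sum_le_sum fun p _ => mul_le_mul_of_nonneg_left (pow_le_pow_left₀
            (zero_le_one.trans (one_le_recipMax _)) recipMax_div_le j)
            (div_nonneg hx (Nat.cast_nonneg p))
      _ = (∑ p ∈ primesUpTo ⌊x⌋₊, x / p) * recipMax x ^ j := by rw [sum_mul]
      _ ≤ x * recipMax x * recipMax x ^ j :=
          mul_le_mul_of_nonneg_right (sum_div_le hx)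
            (pow_nonneg (zero_le_one.trans (one_le_recipMax x)) j)
      _ = _ := by ring

theorem weightErr_succ (j : ℕ) (x : ℝ) :
    weightErr (j + 1) x =
      (((j : ℝ) + 2) / ((j : ℝ) + 1)) * ∑ p ∈ primesUpTo ⌊x⌋₊, weightErr j (x / p) := by
  have h := natCast_mul_logSum_succ (j + 1) x
  push_cast at h
  have e : ∑ p ∈ primesUpTo ⌊x⌋₊, weightErr j (x / p) =
      (∑ p ∈ primesUpTo ⌊x⌋₊, logSum (j + 1) (x / p)) -
        ((j : ℝ) + 1) * x * recipPow (j + 1) x := by
    rw [recipPow_succ, mul_sum, ← sum_sub_distrib]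
    refine sum_congr rfl fun p _ => ?_
    rw [weightErr]
    ring
  have hj : (j : ℝ) + 1 ≠ 0 := by positivity
  rw [e, weightErr]
  push_cast
  field_simp
  linear_combination h

theorem theta_eq (x : ℝ) :
    ∑ p ∈ primesUpTo ⌊x⌋₊, Real.log p = Chebyshev.theta x := by
  unfold Chebyshev.theta primesUpTo
  rfl

/-- **The induction.** -/
theorem exists_weightErr_le (j : ℕ) : ∀ ε : ℝ, 0 < ε → ∃ M : ℝ, 0 ≤ M ∧ ∀ x : ℝ, 0 ≤ x →
    |weightErr j x| ≤ ε * x * recipMax x ^ j + M * lowerOrder j x := by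
  induction j with
  | zero =>
    intro ε hε
    obtain ⟨X, hX⟩ := eventually_atTop.1
      (FA.PNT.Summary.tendsto_theta.eventually (Metric.ball_mem_nhds (1 : ℝ) hε))
    obtain ⟨Y, hY⟩ : ∃ Y, Y = max X 1 := ⟨_, rfl⟩
    have hY1 : 1 ≤ Y := hY ▸ le_max_right _ _
    refine ⟨Chebyshev.theta Y + Y, add_nonneg (Chebyshev.theta_nonneg Y) (by linarith),
      fun x hx => ?_⟩
    simp only [lowerOrder, if_true, pow_zero, mul_one]
    have hth := Chebyshev.theta_nonneg x
    have hthY := Chebyshev.theta_nonneg Y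
    rcases lt_or_ge x 1 with h1 | h1
    · have e0 : ⌊x⌋₊ = 0 := Nat.floor_eq_zero.2 h1
      have e1 : recipPow 0 x = 0 := by
        rw [recipPow, e0]
        refine sum_eq_zero fun t ht => absurd (mem_primeTuples.1 ht).2 ?_
        simp
      have e2 : logSum 1 x = 0 := by rw [logSum_one, e0]; simp [primesUpTo]
      rw [weightErr, e2, e1, mul_zero, sub_zero, abs_zero]
      positivity
    rw [weightErr, recipPow_zero h1, logSum_one, theta_eq]
    simp only [Nat.cast_zero, zero_add, mul_one, one_mul]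
    rcases lt_or_ge x Y with h2 | h2
    · have := Chebyshev.theta_mono h2.le
      rw [abs_le]
      constructor <;> linarith [mul_nonneg hε.le hx]
    · have h3 := hX x (le_trans (hY ▸ le_max_left _ _) h2)
      rw [Real.dist_eq, abs_lt, lt_sub_iff_add_lt, sub_lt_iff_lt_add,
        lt_div_iff₀ (by linarith : (0 : ℝ) < x), div_lt_iff₀ (by linarith : (0 : ℝ) < x)] at h3
      rw [abs_le]
      constructor <;> linarith
  | succ j ih =>
    intro ε hε
    obtain ⟨M, hM, h⟩ := ih (ε / 2) (half_pos hε)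
    refine ⟨2 * M, by positivity, fun x hx => ?_⟩
    rw [weightErr_succ, abs_mul,
      abs_of_pos (show (0 : ℝ) < ((j : ℝ) + 2) / ((j : ℝ) + 1) by positivity)]
    have hratio : ((j : ℝ) + 2) / ((j : ℝ) + 1) ≤ 2 := by
      rw [div_le_iff₀ (by positivity)]
      linarith [(Nat.cast_nonneg j : (0 : ℝ) ≤ j)]
    have hR := zero_le_one.trans (one_le_recipMax x)
    have hsum : ∑ p ∈ primesUpTo ⌊x⌋₊, |weightErr j (x / p)| ≤
        ε / 2 * x * recipMax x ^ (j + 1) + M * lowerOrder (j + 1) x := by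
      refine (sum_le_sum fun (p : ℕ) _ => h (x / p) (div_nonneg hx (Nat.cast_nonneg p))).trans ?_
      rw [sum_add_distrib, ← mul_sum]
      refine add_le_add ?_ (mul_le_mul_of_nonneg_left (sum_lowerOrder_le j hx) hM)
      calc ∑ p ∈ primesUpTo ⌊x⌋₊, ε / 2 * (x / p) * recipMax (x / p) ^ j
          ≤ ∑ p ∈ primesUpTo ⌊x⌋₊, ε / 2 * (x / p) * recipMax x ^ j :=
            sum_le_sum fun p _ => mul_le_mul_of_nonneg_left (pow_le_pow_left₀
              (zero_le_one.trans (one_le_recipMax _)) recipMax_div_le j)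
                (mul_nonneg (half_pos hε).le (div_nonneg hx (Nat.cast_nonneg p)))
        _ = ε / 2 * (∑ p ∈ primesUpTo ⌊x⌋₊, x / p) * recipMax x ^ j := by
            rw [mul_sum, sum_mul]
        _ ≤ ε / 2 * (x * recipMax x) * recipMax x ^ j := by
            gcongr
            exact sum_div_le hx
        _ = _ := by ring
    refine (mul_le_mul hratio ((abs_sum_le_sum_abs _ _).trans hsum) (abs_nonneg _)
      zero_le_two).trans (le_of_eq ?_)
    ring

end FA.LandauAlmostPrimes
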